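import Mathlib
import Fermat.Agent.Lib.Haupt.Formal
import Fermat.Agent.S37.H340.KronBridge
import Fermat.Agent.S28.H88.Theta

/-!
# Row 38 (RIBET), WALL-p, W-EIS leaf UNIT-EIS — formal core (helper101)

Over a domain `K` containing a primitive `ℓ`-th root of unity `ζ` (`ℓ` prime), for every `p` prime
to `ℓ`, the modular unit `u_p = Δ(t^p)/Δ(t)` satisfies

    kronNorm ℓ u_p = u_p ^ (ℓ + 1)            (`kronNorm_unitL`).

## Part 1 (power series)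
For the Euler product `E = ∏ (1 - Xⁿ)` over `K`:
`(∏_{b < ℓ} E(ζ^b X)) · E(X^{ℓ²}) = E(X^ℓ)^{ℓ+1}` (`nrm_etaK`).  Proof: exact identity for the
finite partial products (`nrm_partE`), then passage to the limit coefficientwise (`PCong`).

## Part 2 (Laurent series)
`kronNorm ℓ E = E^(ℓ+1)` (`kronNorm_etaL`), `kronNorm ℓ t = c·t^(ℓ+1)` (`kronNorm_single_one`),
hence `kronNorm ℓ Δ = c·Δ^(ℓ+1)` (`kronNorm_deltaL`); `kronNorm ℓ` commutes with `V_p` for `p`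
prime to `ℓ` (`kronNorm_qExpand`).

Imports: Mathlib, `Lib/Haupt/Formal` (truncations of the Euler product), `S37/H340` (product
formula for the Kronecker norm), `S28/H88/Theta` (`Δ · Δ⁻¹ = 1`).
-/

set_option autoImplicit false

noncomputable section

namespace Fermat.Agent.Ribet.H101

section PartOne


open PowerSeries

section Cong

variable {K : Type*} [CommRing K]

/-- Congruence of power series modulo `X ^ M`. -/
def PCong (M : ℕ) (f g : K⟦X⟧) : Prop := ∀ m < M, coeff m f = coeff m g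

theorem PCong.refl (M : ℕ) (f : K⟦X⟧) : PCong M f f := fun _ _ => rfl

theorem PCong.symm {M : ℕ} {f g : K⟦X⟧} (h : PCong M f g) : PCong M g f :=
  fun m hm => (h m hm).symm

theorem PCong.trans {M : ℕ} {f g h : K⟦X⟧} (h₁ : PCong M f g) (h₂ : PCong M g h) :
    PCong M f h := fun m hm => (h₁ m hm).trans (h₂ m hm)

theorem PCong.mul {M : ℕ} {f f' g g' : K⟦X⟧} (h : PCong M f f') (h' : PCong M g g') :
    PCong M (f * g) (f' * g') := by
  intro m hm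
  rw [coeff_mul, coeff_mul]
  refine Finset.sum_congr rfl fun ij hij => ?_
  have hs : ij.1 + ij.2 = m := Finset.HasAntidiagonal.mem_antidiagonal.mp hij
  rw [h ij.1 (by omega), h' ij.2 (by omega)]

theorem PCong.pow {M : ℕ} {f f' : K⟦X⟧} (h : PCong M f f') (n : ℕ) :
    PCong M (f ^ n) (f' ^ n) := by
  induction n with
  | zero => simpa using PCong.refl M (1 : K⟦X⟧)
  | succ n ih => rw [pow_succ, pow_succ]; exact ih.mul h

theorem PCong.prod {M : ℕ} {ι : Type*} (s : Finset ι) {f f' : ι → K⟦X⟧}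
    (h : ∀ i ∈ s, PCong M (f i) (f' i)) : PCong M (∏ i ∈ s, f i) (∏ i ∈ s, f' i) := by
  classical
  induction s using Finset.induction_on with
  | empty => simpa using PCong.refl M (1 : K⟦X⟧)
  | insert a s ha ih =>
    rw [Finset.prod_insert ha, Finset.prod_insert ha]
    exact (h a (Finset.mem_insert_self a s)).mul
      (ih fun i hi => h i (Finset.mem_insert_of_mem hi))

theorem PCong.rescale {M : ℕ} {f f' : K⟦X⟧} (h : PCong M f f') (c : K) :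
    PCong M (rescale c f) (rescale c f') := by
  intro m hm
  rw [coeff_rescale, coeff_rescale, h m hm]

theorem PCong.expand {M : ℕ} {f f' : K⟦X⟧} (h : PCong M f f') (p : ℕ) (hp : p ≠ 0) :
    PCong M (expand p hp f) (expand p hp f') := by
  intro m hm
  rw [coeff_expand, coeff_expand]
  split_ifs with hd
  · exact h _ (lt_of_le_of_lt (Nat.div_le_self m p) hm)
  · rfl

theorem eq_of_pcong {f g : K⟦X⟧} (h : ∀ M, PCong M f g) : f = g := by
  ext m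
  exact h (m + 1) m (Nat.lt_succ_self m)

end Cong

section Euler

variable (K : Type*) [CommRing K]

/-- The Euler product `∏ (1 - Xⁿ)` over `K`. -/
def etaK : K⟦X⟧ := ModularCurve.etaProd.map (Int.castRingHom K)

/-- The partial Euler products. -/
def partE (n : ℕ) : K⟦X⟧ := ∏ i ∈ Finset.range n, (1 - X ^ (i + 1))

theorem partE_succ (n : ℕ) : partE K (n + 1) = partE K n * (1 - X ^ (n + 1)) := by
  rw [partE, Finset.prod_range_succ, partE]

theorem partE_add (m n : ℕ) :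
    partE K (m + n) = partE K m * ∏ r ∈ Finset.range n, (1 - X ^ (m + r + 1)) := by
  rw [partE, Finset.prod_range_add, partE]

theorem pcong_etaK {M n : ℕ} (h : M ≤ n) : PCong M (etaK K) (partE K n) := by
  intro m hm
  have h1 : partE K n = (∏ i ∈ Finset.range n, (1 - X ^ (i + 1) : PowerSeries ℤ)).map
      (Int.castRingHom K) := by
    rw [partE, map_prod]
    refine Finset.prod_congr rfl fun i _ => ?_
    rw [map_sub, map_one, map_pow, PowerSeries.map_X]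
  rw [h1, etaK, coeff_map, coeff_map,
    Fermat.Agent.Lib.Haupt.coeff_etaProd (M := n) (lt_of_lt_of_le hm h)]

end Euler

section Norm

variable {K : Type*} [CommRing K]

/-- The "norm" `∏_{b < ℓ} f(ζ^b X)`. -/
def nrm (ℓ : ℕ) (ζ : K) (f : K⟦X⟧) : K⟦X⟧ := ∏ b ∈ Finset.range ℓ, rescale (ζ ^ b) f

theorem nrm_mul (ℓ : ℕ) (ζ : K) (f g : K⟦X⟧) : nrm ℓ ζ (f * g) = nrm ℓ ζ f * nrm ℓ ζ g := by
  simp only [nrm, map_mul, Finset.prod_mul_distrib]

theorem nrm_one (ℓ : ℕ) (ζ : K) : nrm ℓ ζ (1 : K⟦X⟧) = 1 := by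
  simp [nrm]

theorem nrm_prod (ℓ : ℕ) (ζ : K) {ι : Type*} (s : Finset ι) (f : ι → K⟦X⟧) :
    nrm ℓ ζ (∏ i ∈ s, f i) = ∏ i ∈ s, nrm ℓ ζ (f i) := by
  classical
  induction s using Finset.induction_on with
  | empty => simp [nrm_one]
  | insert a s ha ih => rw [Finset.prod_insert ha, Finset.prod_insert ha, nrm_mul, ih]

theorem PCong.nrm {M : ℕ} {f f' : K⟦X⟧} (h : PCong M f f') (ℓ : ℕ) (ζ : K) :
    PCong M (nrm ℓ ζ f) (nrm ℓ ζ f') :=
  PCong.prod _ fun b _ => h.rescale (ζ ^ b)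

/-- A root of unity of order dividing `ℓ` fixes `f(X^ℓ)`. -/
theorem rescale_expand_of_pow_eq_one {ℓ : ℕ} (hℓ : ℓ ≠ 0) {c : K} (hc : c ^ ℓ = 1) (g : K⟦X⟧) :
    rescale c (expand ℓ hℓ g) = expand ℓ hℓ g := by
  ext n
  rw [coeff_rescale, coeff_expand]
  split_ifs with hd
  · obtain ⟨m, rfl⟩ := hd
    rw [pow_mul, hc, one_pow, one_mul]
  · rw [mul_zero]

theorem nrm_expand {ℓ : ℕ} (hℓ : ℓ ≠ 0) {ζ : K} (hζ : ζ ^ ℓ = 1) (g : K⟦X⟧) :
    nrm ℓ ζ (expand ℓ hℓ g) = (expand ℓ hℓ g) ^ ℓ := by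
  rw [nrm]
  have : ∀ b ∈ Finset.range ℓ, rescale (ζ ^ b) (expand ℓ hℓ g) = expand ℓ hℓ g := by
    intro b _
    apply rescale_expand_of_pow_eq_one hℓ
    rw [← pow_mul, mul_comm, pow_mul, hζ, one_pow]
  rw [Finset.prod_congr rfl this, Finset.prod_const, Finset.card_range]

theorem expand_one_sub_X_pow {ℓ : ℕ} (hℓ : ℓ ≠ 0) (k : ℕ) :
    expand ℓ hℓ (1 - X ^ k : K⟦X⟧) = 1 - X ^ (ℓ * k) := by
  rw [map_sub, map_one, map_pow, expand_X, ← pow_mul]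

/-- `∏_{i < n} (1 - μⁱ y) = 1 - yⁿ` for a primitive `n`-th root of unity `μ`. -/
theorem prod_one_sub_pow_mul {R : Type*} [CommRing R] [IsDomain R] {n : ℕ} (hn : 0 < n)
    {μ : R} (hμ : IsPrimitiveRoot μ n) (y : R) :
    ∏ i ∈ Finset.range n, (1 - μ ^ i * y) = 1 - y ^ n := by
  have h := X_pow_sub_C_eq_prod hμ hn (rfl : y ^ n = y ^ n)
  have h2 := congrArg (Polynomial.eval (1 : R)) h
  simp only [Polynomial.eval_sub, Polynomial.eval_pow, Polynomial.eval_X, Polynomial.eval_C,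
    one_pow, Polynomial.eval_prod] at h2
  exact h2.symm

theorem nrm_one_sub_X_pow [IsDomain K] {ℓ : ℕ} (hℓ : ℓ.Prime) {ζ : K}
    (hζ : IsPrimitiveRoot ζ ℓ) {k : ℕ} (hk : ¬ ℓ ∣ k) :
    nrm ℓ ζ (1 - X ^ k : K⟦X⟧) = 1 - X ^ (ℓ * k) := by
  have hcop : k.Coprime ℓ := ((Nat.Prime.coprime_iff_not_dvd hℓ).mpr hk).symm
  have hμ : IsPrimitiveRoot (C (ζ ^ k) : K⟦X⟧) ℓ :=
    (hζ.pow_of_coprime k hcop).map_of_injective (PowerSeries.C_injective)
  have h := prod_one_sub_pow_mul hℓ.pos hμ (X ^ k : K⟦X⟧)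
  rw [← pow_mul, mul_comm k ℓ] at h
  rw [← h, nrm]
  refine Finset.prod_congr rfl fun b _ => ?_
  rw [map_sub, map_one, map_pow, rescale_X, mul_pow, ← map_pow, ← map_pow, ← pow_mul, ← pow_mul,
    mul_comm b k]

end Norm

section Identity

variable {K : Type*} [CommRing K] [IsDomain K]

/-- The exact identity for the partial products. -/
theorem nrm_partE {ℓ : ℕ} (hℓ : ℓ.Prime) {ζ : K} (hζ : IsPrimitiveRoot ζ ℓ) (n : ℕ) :
    nrm ℓ ζ (partE K (ℓ * n)) * expand ℓ hℓ.ne_zero (expand ℓ hℓ.ne_zero (partE K n)) =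
      expand ℓ hℓ.ne_zero (partE K (ℓ * n)) * (expand ℓ hℓ.ne_zero (partE K n)) ^ ℓ := by
  induction n with
  | zero => simp [partE, nrm_one]
  | succ n ih =>
    obtain ⟨ℓ', rfl⟩ : ∃ ℓ', ℓ = ℓ' + 1 := ⟨ℓ - 1, (Nat.sub_add_cancel hℓ.pos).symm⟩
    have hsplit : partE K ((ℓ' + 1) * (n + 1)) =
        partE K ((ℓ' + 1) * n) *
          ((∏ r ∈ Finset.range ℓ', (1 - X ^ ((ℓ' + 1) * n + r + 1) : K⟦X⟧)) *
            expand (ℓ' + 1) hℓ.ne_zero (1 - X ^ (n + 1))) := by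
      rw [show (ℓ' + 1) * (n + 1) = (ℓ' + 1) * n + (ℓ' + 1) by ring, partE_add,
        Finset.prod_range_succ, expand_one_sub_X_pow,
        show (ℓ' + 1) * n + ℓ' + 1 = (ℓ' + 1) * (n + 1) by ring]
    have hB : nrm (ℓ' + 1) ζ (∏ r ∈ Finset.range ℓ', (1 - X ^ ((ℓ' + 1) * n + r + 1) : K⟦X⟧)) =
        expand (ℓ' + 1) hℓ.ne_zero
          (∏ r ∈ Finset.range ℓ', (1 - X ^ ((ℓ' + 1) * n + r + 1) : K⟦X⟧)) := by
      rw [nrm_prod, map_prod]
      refine Finset.prod_congr rfl fun r hr => ?_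
      have hr' : r < ℓ' := Finset.mem_range.mp hr
      rw [expand_one_sub_X_pow]
      apply nrm_one_sub_X_pow hℓ hζ
      intro hd
      have h1 : (ℓ' + 1) ∣ r + 1 := by
        have : (ℓ' + 1) * n + r + 1 = (ℓ' + 1) * n + (r + 1) := by ring
        rw [this] at hd
        exact (Nat.dvd_add_right (dvd_mul_right _ _)).mp hd
      have := Nat.le_of_dvd (Nat.succ_pos r) h1
      omega
    rw [hsplit, partE_succ, nrm_mul, nrm_mul, hB, nrm_expand hℓ.ne_zero hζ.pow_eq_one]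
    simp only [map_mul, mul_pow]
    linear_combination
      (expand (ℓ' + 1) hℓ.ne_zero
          (∏ r ∈ Finset.range ℓ', (1 - X ^ ((ℓ' + 1) * n + r + 1) : K⟦X⟧)) *
        expand (ℓ' + 1) hℓ.ne_zero (1 - X ^ (n + 1)) ^ (ℓ' + 1) *
        expand (ℓ' + 1) hℓ.ne_zero (expand (ℓ' + 1) hℓ.ne_zero (1 - X ^ (n + 1)))) * ih

/-- **Core identity** for the Euler product. -/
theorem nrm_etaK {ℓ : ℕ} (hℓ : ℓ.Prime) {ζ : K} (hζ : IsPrimitiveRoot ζ ℓ) :
    nrm ℓ ζ (etaK K) * expand ℓ hℓ.ne_zero (expand ℓ hℓ.ne_zero (etaK K)) =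
      (expand ℓ hℓ.ne_zero (etaK K)) ^ (ℓ + 1) := by
  apply eq_of_pcong
  intro M
  have h1 : PCong M (etaK K) (partE K (ℓ * M)) :=
    pcong_etaK K (Nat.le_mul_of_pos_left M hℓ.pos)
  have h2 : PCong M (etaK K) (partE K M) := pcong_etaK K le_rfl
  have hL : PCong M (nrm ℓ ζ (etaK K) * expand ℓ hℓ.ne_zero (expand ℓ hℓ.ne_zero (etaK K)))
      (nrm ℓ ζ (partE K (ℓ * M)) *
        expand ℓ hℓ.ne_zero (expand ℓ hℓ.ne_zero (partE K M))) :=
    (h1.nrm ℓ ζ).mul ((h2.expand ℓ hℓ.ne_zero).expand ℓ hℓ.ne_zero)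
  have hR : PCong M ((expand ℓ hℓ.ne_zero (etaK K)) ^ (ℓ + 1))
      (expand ℓ hℓ.ne_zero (partE K (ℓ * M)) * (expand ℓ hℓ.ne_zero (partE K M)) ^ ℓ) := by
    rw [pow_succ, mul_comm]
    exact (h1.expand ℓ hℓ.ne_zero).mul ((h2.expand ℓ hℓ.ne_zero).pow ℓ)
  rw [nrm_partE hℓ hζ M] at hL
  exact hL.trans hR.symm

end Identity

end PartOne

section PartTwo


open PowerSeries ModularCurve Fermat.Agent.S37 Fermat.Agent.S28

variable {K : Type*} [CommRing K]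

/-! ## Power series versus Laurent series -/

theorem ofPS_rescale {ℓ : ℕ} [NeZero ℓ] {c : K} (hc : c ^ ℓ = 1) (f : K⟦X⟧) :
    HahnSeries.ofPowerSeries ℤ K (rescale c f) =
      H340.tw ℓ c (HahnSeries.ofPowerSeries ℤ K f) := by
  ext n
  rw [H340.tw_coeff]
  rcases lt_or_ge n 0 with hn | hn
  · rw [ofPowerSeries_coeff_of_neg _ hn, ofPowerSeries_coeff_of_neg _ hn, mul_zero]
  · obtain ⟨m, rfl⟩ := Int.eq_ofNat_of_zero_le hn
    rw [HahnSeries.ofPowerSeries_apply_coeff, HahnSeries.ofPowerSeries_apply_coeff,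
      coeff_rescale, H340.zpw_natCast hc]

theorem ofPS_expand {ℓ : ℕ} [NeZero ℓ] (hℓ : ℓ ≠ 0) (f : K⟦X⟧) :
    HahnSeries.ofPowerSeries ℤ K (expand ℓ hℓ f) =
      qExpand K ℓ (HahnSeries.ofPowerSeries ℤ K f) := by
  ext n
  by_cases hd : (ℓ : ℤ) ∣ n
  · obtain ⟨m, rfl⟩ := hd
    rw [qExpand_coeff_mul]
    rcases lt_or_ge m 0 with hm | hm
    · have hℓpos : (0 : ℤ) < (ℓ : ℤ) := by exact_mod_cast Nat.pos_of_ne_zero hℓ
      have : (ℓ : ℤ) * m < 0 := mul_neg_of_pos_of_neg hℓpos hm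
      rw [ofPowerSeries_coeff_of_neg _ this, ofPowerSeries_coeff_of_neg _ hm]
    · obtain ⟨k, rfl⟩ := Int.eq_ofNat_of_zero_le hm
      rw [← Nat.cast_mul, HahnSeries.ofPowerSeries_apply_coeff,
        HahnSeries.ofPowerSeries_apply_coeff, coeff_expand_mul]
  · rw [qExpand_coeff_of_not_dvd _ _ hd]
    rcases lt_or_ge n 0 with hn | hn
    · exact ofPowerSeries_coeff_of_neg _ hn
    · obtain ⟨k, rfl⟩ := Int.eq_ofNat_of_zero_le hn
      rw [HahnSeries.ofPowerSeries_apply_coeff, coeff_expand_of_not_dvd]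
      intro h
      exact hd (Int.natCast_dvd_natCast.mpr h)

variable (K) in
/-- The Euler product as a Laurent series. -/
def etaL : LaurentSeries K := HahnSeries.ofPowerSeries ℤ K (etaK K)

/-! ## The Kronecker norm of the Euler product -/

theorem prod_tw_etaL {ℓ : ℕ} [NeZero ℓ] {ζ : K} (hζ : ζ ^ ℓ = 1) :
    ∏ b : Fin ℓ, H340.tw ℓ (ζ ^ (b : ℕ)) (etaL K) =
      HahnSeries.ofPowerSeries ℤ K (nrm ℓ ζ (etaK K)) := by
  rw [nrm, map_prod, ← Finset.prod_range (fun b => H340.tw ℓ (ζ ^ b) (etaL K))]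
  refine Finset.prod_congr rfl fun b _ => ?_
  rw [etaL, ofPS_rescale (ℓ := ℓ)]
  rw [← pow_mul, mul_comm, pow_mul, hζ, one_pow]

theorem kronNorm_etaL [IsDomain K] {ℓ : ℕ} [NeZero ℓ] (hℓ : ℓ.Prime) {ζ : K}
    (hζ : IsPrimitiveRoot ζ ℓ) : H400.kronNorm ℓ (etaL K) = etaL K ^ (ℓ + 1) := by
  apply qExpand_injective (R := K) (N := ℓ)
  rw [H340.qExpand_kronNorm hζ, map_pow, prod_tw_etaL hζ.pow_eq_one]
  have h1 : qExpand K ℓ (etaL K) =
      HahnSeries.ofPowerSeries ℤ K (expand ℓ hℓ.ne_zero (etaK K)) := by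
    rw [ofPS_expand, etaL]
  have h2 : qExpand K ℓ (qExpand K ℓ (etaL K)) =
      HahnSeries.ofPowerSeries ℤ K (expand ℓ hℓ.ne_zero (expand ℓ hℓ.ne_zero (etaK K))) := by
    rw [ofPS_expand, ← h1]
  rw [h2, h1, ← map_mul, ← map_pow, mul_comm, nrm_etaK hℓ hζ]

/-! ## The Kronecker norm of `t` -/

theorem tw_single_one {ℓ : ℕ} [NeZero ℓ] {c : K} (hc : c ^ ℓ = 1) :
    H340.tw ℓ c (HahnSeries.single (1 : ℤ) (1 : K)) =
      HahnSeries.C c * HahnSeries.single (1 : ℤ) (1 : K) := by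
  ext n
  rw [H340.tw_coeff, HahnSeries.C_mul_eq_smul, HahnSeries.coeff_smul, smul_eq_mul]
  by_cases hn : n = 1
  · subst hn
    have := H340.zpw_natCast hc 1
    rw [pow_one] at this
    rw [show (1 : ℤ) = ((1 : ℕ) : ℤ) by norm_num, this]
  · rw [HahnSeries.coeff_single_of_ne hn, mul_zero, mul_zero]

/-- The constant `∏_{b<ℓ} ζ^b`. -/
def cZeta (ℓ : ℕ) (ζ : K) : K := ∏ b : Fin ℓ, ζ ^ (b : ℕ)

theorem kronNorm_single_one [IsDomain K] {ℓ : ℕ} [NeZero ℓ] {ζ : K}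
    (hζ : IsPrimitiveRoot ζ ℓ) :
    H400.kronNorm ℓ (HahnSeries.single (1 : ℤ) (1 : K)) =
      HahnSeries.C (cZeta ℓ ζ) * HahnSeries.single (1 : ℤ) (1 : K) ^ (ℓ + 1) := by
  apply qExpand_injective (R := K) (N := ℓ)
  rw [H340.qExpand_kronNorm hζ, map_mul, map_pow, qExpand_C, qExpand_single, qExpand_single]
  have h1 : ∀ b : Fin ℓ, H340.tw ℓ (ζ ^ (b : ℕ)) (HahnSeries.single (1 : ℤ) (1 : K)) =
      HahnSeries.C (ζ ^ (b : ℕ)) * HahnSeries.single (1 : ℤ) (1 : K) := by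
    intro b
    apply tw_single_one
    rw [← pow_mul, mul_comm, pow_mul, hζ.pow_eq_one, one_pow]
  rw [Finset.prod_congr rfl fun b _ => h1 b, Finset.prod_mul_distrib, Finset.prod_const,
    Finset.card_univ, Fintype.card_fin, ← map_prod, cZeta, HahnSeries.single_pow,
    HahnSeries.single_pow, one_pow, mul_left_comm, HahnSeries.single_mul_single, mul_one]
  have he : (ℓ : ℤ) * (ℓ : ℤ) + ℓ • (1 : ℤ) = (ℓ + 1) • (ℓ : ℤ) := by
    simp only [nsmul_eq_mul, mul_one]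
    push_cast
    ring
  rw [he, one_pow, mul_one]

/-! ## The Kronecker norm of `Δ` -/

theorem deltaL_eq (K : Type*) [CommRing K] :
    deltaL K = HahnSeries.single (1 : ℤ) (1 : K) * etaL K ^ 24 := by
  rw [deltaL, etaL, etaK, ← map_pow, ← map_pow]
  rfl

theorem kronNorm_deltaL [IsDomain K] {ℓ : ℕ} [NeZero ℓ] (hℓ : ℓ.Prime) {ζ : K}
    (hζ : IsPrimitiveRoot ζ ℓ) :
    H400.kronNorm ℓ (deltaL K) = HahnSeries.C (cZeta ℓ ζ) * deltaL K ^ (ℓ + 1) := by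
  rw [deltaL_eq, H400.kronNorm_mul, H400.kronNorm_pow, kronNorm_single_one hζ,
    kronNorm_etaL hℓ hζ]
  ring

/-! ## `kronNorm ℓ` commutes with `V_p`, `p` prime to `ℓ` -/

theorem zpw_mul_eq {ℓ : ℕ} [NeZero ℓ] {c : K} (hc : c ^ ℓ = 1) (p : ℕ) (m : ℤ) :
    H340.zpw ℓ c ((p : ℤ) * m) = H340.zpw ℓ (c ^ p) m := by
  have hℓ : (0 : ℤ) < (ℓ : ℤ) := by exact_mod_cast Nat.pos_of_ne_zero (NeZero.ne ℓ)
  unfold H340.zpw
  rw [← pow_mul, pow_eq_pow_mod _ hc, pow_eq_pow_mod (p * (m % (ℓ : ℤ)).toNat) hc]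
  congr 1
  have h0 := Int.emod_nonneg ((p : ℤ) * m) hℓ.ne'
  have h1 := Int.emod_nonneg m hℓ.ne'
  have key : ((((p : ℤ) * m) % (ℓ : ℤ)).toNat : ℤ) % ℓ
      = ((p * (m % (ℓ : ℤ)).toNat : ℕ) : ℤ) % ℓ := by
    have hmod : ((p : ℤ) * m) % ℓ = ((p : ℤ) * (m % ℓ)) % ℓ := by
      rw [Int.mul_emod, Int.mul_emod (p : ℤ) (m % ℓ), Int.emod_emod_of_dvd _ dvd_rfl]
    push_cast
    rw [Int.toNat_of_nonneg h0, Int.toNat_of_nonneg h1, Int.emod_emod_of_dvd _ dvd_rfl, hmod]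
  exact_mod_cast key

theorem tw_qExpand_pow {ℓ : ℕ} [NeZero ℓ] {c : K} (hc : c ^ ℓ = 1) (p : ℕ) [NeZero p]
    (g : LaurentSeries K) :
    H340.tw ℓ c (qExpand K p g) = qExpand K p (H340.tw ℓ (c ^ p) g) := by
  ext n
  rw [H340.tw_coeff]
  by_cases hd : (p : ℤ) ∣ n
  · obtain ⟨m, rfl⟩ := hd
    rw [qExpand_coeff_mul, qExpand_coeff_mul, H340.tw_coeff, zpw_mul_eq hc]
  · rw [qExpand_coeff_of_not_dvd _ _ hd, qExpand_coeff_of_not_dvd _ _ hd, mul_zero]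

theorem kronNorm_qExpand [IsDomain K] {ℓ : ℕ} [NeZero ℓ] {ζ : K} (hζ : IsPrimitiveRoot ζ ℓ)
    (p : ℕ) [NeZero p] (hp : p.Coprime ℓ) (g : LaurentSeries K) :
    H400.kronNorm ℓ (qExpand K p g) = qExpand K p (H400.kronNorm ℓ g) := by
  have hζp : IsPrimitiveRoot (ζ ^ p) ℓ := hζ.pow_of_coprime p hp
  apply qExpand_injective (R := K) (N := ℓ)
  have hcomm : ∀ f : LaurentSeries K, qExpand K ℓ (qExpand K p f) = qExpand K p (qExpand K ℓ f) := by
    intro f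
    have : NeZero (ℓ * p) := ⟨Nat.mul_ne_zero (NeZero.ne ℓ) (NeZero.ne p)⟩
    have : NeZero (p * ℓ) := ⟨Nat.mul_ne_zero (NeZero.ne p) (NeZero.ne ℓ)⟩
    rw [qExpand_qExpand, qExpand_qExpand]
    exact qExpand_congr (mul_comm ℓ p) f
  rw [H340.qExpand_kronNorm hζ, hcomm (H400.kronNorm ℓ g), H340.qExpand_kronNorm hζp, map_mul,
    map_prod, hcomm, hcomm]
  congr 1
  refine Finset.prod_congr rfl fun b _ => ?_
  rw [tw_qExpand_pow (by rw [← pow_mul, mul_comm, pow_mul, hζ.pow_eq_one, one_pow]),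
    ← pow_mul, ← pow_mul, mul_comm]

/-! ## The modular unit -/

/-- **UNIT-EIS, formal core**: `kronNorm ℓ (Δ(t^p)/Δ(t)) = (Δ(t^p)/Δ(t))^(ℓ+1)`. -/
theorem kronNorm_unitL [IsDomain K] {ℓ : ℕ} [NeZero ℓ] (hℓ : ℓ.Prime) {ζ : K}
    (hζ : IsPrimitiveRoot ζ ℓ) (p : ℕ) [NeZero p] (hp : p.Coprime ℓ) :
    H400.kronNorm ℓ (unitL K p) = unitL K p ^ (ℓ + 1) := by
  have hΔ := kronNorm_deltaL hℓ hζ
  have hinv : deltaL K * deltaInvL K = 1 := h88_deltaL_mul_deltaInvL K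
  have h1 : H400.kronNorm ℓ (deltaL K) * H400.kronNorm ℓ (deltaInvL K) = 1 := by
    rw [← H400.kronNorm_mul, hinv, H400.kronNorm_one]
  rw [hΔ] at h1
  have h2 : HahnSeries.C (cZeta ℓ ζ) * H400.kronNorm ℓ (deltaInvL K) =
      deltaInvL K ^ (ℓ + 1) := by
    have h3 : (deltaL K * deltaInvL K) ^ (ℓ + 1) = 1 := by rw [hinv, one_pow]
    calc HahnSeries.C (cZeta ℓ ζ) * H400.kronNorm ℓ (deltaInvL K)
        = HahnSeries.C (cZeta ℓ ζ) * H400.kronNorm ℓ (deltaInvL K) *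
            (deltaL K * deltaInvL K) ^ (ℓ + 1) := by rw [h3, mul_one]
      _ = (HahnSeries.C (cZeta ℓ ζ) * deltaL K ^ (ℓ + 1) * H400.kronNorm ℓ (deltaInvL K)) *
            deltaInvL K ^ (ℓ + 1) := by ring
      _ = deltaInvL K ^ (ℓ + 1) := by rw [h1, one_mul]
  rw [unitL, H400.kronNorm_mul, kronNorm_qExpand hζ p hp, hΔ, map_mul, map_pow, qExpand_C,
    mul_pow]
  linear_combination (qExpand K p (deltaL K) ^ (ℓ + 1)) * h2

end PartTwo

end Fermat.Agent.Ribet.H101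

end
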