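import Fermat.Agent.Ribet.H884.EisSpec
import Fermat.Agent.Ribet.H101.UnitEisCore

/-!
# Row 38 (RIBET), WALL-p, W-EIS leaf **UNIT-EIS** (helper101)

`unitEis : H884.UnitEisStatement` — the modular unit `u_p = Δ(t^p)/Δ(t)` is an Eisenstein
eigenfunction of the function-level Hecke operators: `kronNorm ℓ u_p = u_p ^ (ℓ + 1)` (`ℓ ≠ p`;
the constant is `1`).
-/

set_option autoImplicit false

noncomputable section

namespace Fermat.Agent.Ribet.H101

open Fermat.Agent.S24 Fermat.Agent.A2.H708 Fermat.Agent.S37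

/-- **UNIT-EIS** (exact Spec shape). -/
theorem unitEis : Fermat.Agent.Ribet.H884.UnitEisStatement := by
  intro p _ ℓ _ hp hℓp
  have : NeZero (((ℓ : ℕ) : ℕ) : Kbar) := ⟨Nat.cast_ne_zero.mpr ℓ.2.ne_zero⟩
  obtain ⟨ζ, hζ⟩ := HasEnoughRootsOfUnity.exists_primitiveRoot Kbar (ℓ : ℕ)
  refine ⟨1, one_ne_zero, ?_⟩
  rw [kronNorm_unitL ℓ.2 hζ p ((Nat.coprime_primes hp ℓ.2).mpr (Ne.symm hℓp)), cst, map_one,
    one_mul]

end Fermat.Agent.Ribet.H101

end
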